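import Mathlib
import Fermat.Agent.LT.T2.H511.FDSpec

/-!
# Row LT, tower T2, leaf T2.03a.4 `LeafCpt` (helper793, OFF-MAIN)

Four compactness facts in `𝔸_K` and `GL₂(𝔸_K)`:
`leafCpt793 K : H511.LeafCpt K`, VERBATIM vs `LT/T2/H511/FDSpec.lean`
(helper511@94e516506, sha256 ad79b18a).  Topology only; the hypothesis `T1.T1Out K` is not used.
-/

set_option autoImplicit false

open IsDedekindDomain NumberField Topology
open Fermat.Agent.LT.H556.A0
open Fermat.Agent.LT.T2 Fermat.Agent.LT.T2.H386 Fermat.Agent.LT.T2.H511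

noncomputable section

namespace Fermat.Agent.LT.T2.H793

variable {K : Type} [Field K] [NumberField K]

/-! ## (1) conjugates -/

/-- `u ↦ n(u)` is continuous into `GL₂(𝔸_K)`. -/
lemma continuous_unip386_793 : Continuous (unip386 : Adl K → G K) := by
  rw [Units.continuous_iff]
  constructor
  · have h : (Units.val ∘ (unip386 : Adl K → G K))
        = fun u : Adl K => (!![1, u; 0, 1] : Matrix (Fin 2) (Fin 2) (Adl K)) := rfl
    rw [h]
    refine continuous_matrix (fun i j => ?_)
    fin_cases i <;> fin_cases j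
    · exact continuous_const
    · exact continuous_id
    · exact continuous_const
    · exact continuous_const
  · have h : (fun u : Adl K => (((unip386 u : G K)⁻¹ : G K) :
          Matrix (Fin 2) (Fin 2) (Adl K)))
        = fun u : Adl K => (!![1, -u; 0, 1] : Matrix (Fin 2) (Fin 2) (Adl K)) := rfl
    rw [h]
    refine continuous_matrix (fun i j => ?_)
    fin_cases i <;> fin_cases j
    · exact continuous_const
    · exact continuous_neg
    · exact continuous_const
    · exact continuous_const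

lemma isCompact_conjSet793 (Ω : Set (G K)) (hΩ : IsCompact Ω) (𝒰 : Set (Adl K))
    (h𝒰 : IsCompact 𝒰) : IsCompact (conjSet511 Ω 𝒰) := by
  have hcont : Continuous (fun p : G K × Adl K => p.1⁻¹ * unip386 p.2 * p.1) :=
    ((continuous_fst.inv).mul (continuous_unip386_793.comp continuous_snd)).mul continuous_fst
  have himg := (hΩ.prod h𝒰).image hcont
  have hset : (fun p : G K × Adl K => p.1⁻¹ * unip386 p.2 * p.1) '' (Ω ×ˢ 𝒰)
      = conjSet511 Ω 𝒰 := by
    ext g
    constructor
    · rintro ⟨⟨ω, u⟩, ⟨hω, hu⟩, rfl⟩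
      exact ⟨ω, hω, u, hu, rfl⟩
    · rintro ⟨ω, hω, u, hu, rfl⟩
      exact ⟨(ω, u), ⟨hω, hu⟩, rfl⟩
  rw [← hset]
  exact himg

/-! ## (2) boundedness at infinity -/

lemma bounded_inf793 (𝒟 : Set (Adl K)) (h𝒟 : IsCompact 𝒟) :
    ∃ R : ℝ, 0 ≤ R ∧ ∀ v ∈ 𝒟, ∀ w : InfinitePlace K, ‖v.1 w‖ ≤ R := by
  have h : ∀ w : InfinitePlace K, ∃ C : ℝ, ∀ v ∈ 𝒟, ‖v.1 w‖ ≤ C := by
    intro w
    have hc : Continuous (fun v : Adl K => v.1 w) := (continuous_apply w).comp continuous_fst
    exact h𝒟.exists_bound_of_continuousOn hc.continuousOn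
  choose C hC using h
  refine ⟨∑ w : InfinitePlace K, |C w|, Finset.sum_nonneg (fun w _ => abs_nonneg _), ?_⟩
  intro v hv w
  calc ‖v.1 w‖ ≤ C w := hC w v hv
    _ ≤ |C w| := le_abs_self _
    _ ≤ ∑ w : InfinitePlace K, |C w| :=
      Finset.single_le_sum (f := fun w => |C w|) (fun w _ => abs_nonneg _) (Finset.mem_univ w)

/-! ## (3) the box -/

omit [NumberField K] in
lemma isCompact_ballInf793 (w : InfinitePlace K) (R : ℝ) :
    IsCompact {x : w.Completion | ‖x‖ ≤ R} := by
  have hiso := InfinitePlace.Completion.isometry_extensionEmbedding w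
  have hemb : IsClosedEmbedding (InfinitePlace.Completion.extensionEmbedding w) :=
    hiso.isClosedEmbedding
  have hc : IsCompact (Metric.closedBall (0 : ℂ) R) := isCompact_closedBall 0 R
  have := hemb.isCompact_preimage hc
  have hset : (InfinitePlace.Completion.extensionEmbedding w) ⁻¹' Metric.closedBall (0 : ℂ) R
      = {x : w.Completion | ‖x‖ ≤ R} := by
    ext x
    simp only [Set.mem_preimage, Metric.mem_closedBall, dist_zero_right]
    have hn : ‖InfinitePlace.Completion.extensionEmbedding w x‖ = ‖x‖ := by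
      have := hiso.dist_eq x 0
      rwa [map_zero, dist_zero_right, dist_zero_right] at this
    rw [hn]
    exact Iff.rfl
  rwa [hset] at this

omit [NumberField K] in
lemma isCompact_piBallInf793 (R : ℝ) :
    IsCompact {x : InfiniteAdeleRing K | ∀ w : InfinitePlace K, ‖x w‖ ≤ R} := by
  have h := isCompact_univ_pi (fun w : InfinitePlace K => isCompact_ballInf793 w R)
  have hset : (Set.univ.pi fun w : InfinitePlace K => {x : w.Completion | ‖x‖ ≤ R})
      = {x : InfiniteAdeleRing K | ∀ w : InfinitePlace K, ‖x w‖ ≤ R} := by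
    ext x
    simp only [Set.mem_pi, Set.mem_univ, true_implies]
    exact Iff.rfl
  rw [← hset]
  exact h

lemma isCompact_box511_793 (𝒟 : Set (Adl K)) (h𝒟 : IsCompact 𝒟) (R : ℝ) (m : ℕ) :
    IsCompact (box511 𝒟 R m) := by
  have hc : Continuous (fun v : Adl K => ((m : Adl K) * v).2) :=
    continuous_snd.comp (continuous_const.mul continuous_id)
  have h2 := h𝒟.image hc
  have h := (isCompact_piBallInf793 (K := K) R).prod h2
  have hset : box511 𝒟 R m
      = ({x : InfiniteAdeleRing K | ∀ w : InfinitePlace K, ‖x w‖ ≤ R} ×ˢ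
          ((fun v : Adl K => ((m : Adl K) * v).2) '' 𝒟) :
          Set (InfiniteAdeleRing K × FiniteAdeleRing (𝓞 K) K)) := by
    ext u
    constructor
    · rintro ⟨h1, v, hv, h2⟩
      exact ⟨h1, v, hv, h2.symm⟩
    · rintro ⟨h1, v, hv, h2⟩
      exact ⟨h1, v, hv, h2.symm⟩
  rw [hset]
  exact h

/-! ## (4) sums -/

lemma sumsLE_zero793 (𝒟 : Set (Adl K)) : sumsLE511 𝒟 0 = {0} := by
  ext y
  constructor
  · rintro ⟨l, hl, -, rfl⟩
    have : l = [] := List.length_eq_zero_iff.1 (Nat.le_zero.1 hl)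
    subst this
    simp
  · intro hy
    rw [Set.mem_singleton_iff] at hy
    subst hy
    exact ⟨[], le_rfl, fun v hv => absurd hv (List.not_mem_nil), rfl⟩

lemma sumsLE_succ793 (𝒟 : Set (Adl K)) (M : ℕ) :
    sumsLE511 𝒟 (M + 1)
      = sumsLE511 𝒟 M ∪ (fun p : Adl K × Adl K => p.1 + p.2) '' (𝒟 ×ˢ sumsLE511 𝒟 M) := by
  ext y
  constructor
  · rintro ⟨l, hl, hmem, rfl⟩
    rcases l with _ | ⟨a, l'⟩
    · left
      exact ⟨[], Nat.zero_le _, fun v hv => absurd hv (List.not_mem_nil), rfl⟩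
    · right
      refine ⟨(a, l'.sum), ⟨hmem a (List.mem_cons_self), l', ?_, ?_, rfl⟩, ?_⟩
      · simpa using hl
      · intro v hv
        exact hmem v (List.mem_cons_of_mem _ hv)
      · simp
  · rintro (⟨l, hl, hmem, rfl⟩ | ⟨⟨a, b⟩, ⟨ha, l, hl, hmem, hb⟩, rfl⟩)
    · exact ⟨l, Nat.le_succ_of_le hl, hmem, rfl⟩
    · simp only at hb
      subst hb
      refine ⟨a :: l, by simpa using hl, ?_, by simp⟩
      intro v hv
      rcases List.mem_cons.1 hv with rfl | hv'
      · exact ha
      · exact hmem v hv'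

lemma isCompact_sumsLE793 (𝒟 : Set (Adl K)) (h𝒟 : IsCompact 𝒟) (M : ℕ) :
    IsCompact (sumsLE511 𝒟 M) := by
  induction M with
  | zero =>
    rw [sumsLE_zero793]
    exact isCompact_singleton
  | succ M ih =>
    rw [sumsLE_succ793]
    exact ih.union ((h𝒟.prod ih).image (continuous_fst.add continuous_snd))

/-! ## The leaf -/

/-- The four compactness facts. -/
theorem cptC793 (K : Type) [Field K] [NumberField K] : CptC K :=
  ⟨fun Ω hΩ 𝒰 h𝒰 => isCompact_conjSet793 Ω hΩ 𝒰 h𝒰,
    fun 𝒟 h𝒟 => bounded_inf793 𝒟 h𝒟,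
    fun 𝒟 h𝒟 R m => isCompact_box511_793 𝒟 h𝒟 R m,
    fun 𝒟 h𝒟 M => isCompact_sumsLE793 𝒟 h𝒟 M⟩

/-- **T2.03a.4 = `LeafCpt`**, verbatim. -/
theorem leafCpt793 (K : Type) [Field K] [NumberField K] : LeafCpt K :=
  fun _ => cptC793 K

end Fermat.Agent.LT.T2.H793

end
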