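import Mathlib
import Fermat.Agent.LT.T2.H175.TauSpec
import Fermat.Agent.LT.T2.H724.Glue

/-!
# Row LT, tower T2, leaf T2.22d.6 `FinGlueC175` (helper793, OFF-MAIN)

The finite part of the double coset statement for the anti-involution `θ(g) = e gᵀ e`:
`finGlueC793 K : H175.FinGlueC175 K`, VERBATIM vs `LT/T2/H175/TauSpec.lean`
(helper175@f81a7bf74, sha256 da27a6e8).

Tools (byte-identical copies of helper724@670e68d67): `LT/T2/H724/IdealCl.lean` (dcde775d:
the closure `𝔫 𝒪_v` is an ideal of `𝒪_v`, equal to `𝒪_v` for `v ∤ 𝔫`) and `LT/T2/H724/Glue.lean`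
(1e1307a3: `mkG724`, `InCl724`).  The proof is the proof of `exists_fin724` with `θ` in place of
the adjugate.
-/

set_option autoImplicit false

open IsDedekindDomain NumberField
open Fermat.Agent.LT.H556.A0
open Fermat.Agent.LT.T2 Fermat.Agent.LT.T2.H724 Fermat.Agent.LT.T2.H175 Fermat.Agent.LT.T1.H724

noncomputable section

namespace Fermat.Agent.LT.T2.H793

variable {K : Type} [Field K] [NumberField K]

section FinChoice

variable {v : HeightOneSpectrum (𝓞 K)} {𝔫 : Ideal (𝓞 K)}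

/-- `θ` preserves the congruence `≡ 1 mod 𝔫 𝒪_v`. -/
theorem inCl_theta793 {X : Matrix (Fin 2) (Fin 2) (v.adicCompletion K)}
    (hX : InCl724 v 𝔫 (X - 1)) : InCl724 v 𝔫 (thetaM175 X - 1) := by
  have h00 := hX 0 0
  have h01 := hX 0 1
  have h10 := hX 1 0
  have h11 := hX 1 1
  simp only [Matrix.sub_apply, Matrix.one_apply_eq, Matrix.one_apply_ne, ne_eq, one_ne_zero,
    not_false_eq_true, zero_ne_one, sub_zero] at h00 h01 h10 h11
  intro i j
  fin_cases i <;> fin_cases j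
  · simpa [thetaM175] using h00
  · simpa [thetaM175] using neg_mem_idealClosure724 v 𝔫 h10
  · simpa [thetaM175] using neg_mem_idealClosure724 v 𝔫 h01
  · simpa [thetaM175] using h11

/-- the local choice at a finite place, for `θ` -/
theorem exists_finT793 (hFin : LocFinTC175 K) (𝔫 : Ideal (𝓞 K)) (g : G K)
    (hg : IsBadUnit724 𝔫 g) (v : HeightOneSpectrum (𝓞 K)) :
    ∃ A A' B B' : Matrix (Fin 2) (Fin 2) (v.adicCompletion K),
      A * A' = 1 ∧ B * B' = 1 ∧
      (InCl724 v 𝔫 (A - 1) ∧ InCl724 v 𝔫 (A' - 1)) ∧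
      (InCl724 v 𝔫 (B - 1) ∧ InCl724 v 𝔫 (B' - 1)) ∧
      thetaM175 (finComp v g) = A * finComp v g * B := by
  by_cases hv : v.asIdeal ∣ 𝔫
  · have hM : InCl724 v 𝔫 (finComp v g - 1) := fun i j => (hg v hv i j).1
    have hM' : InCl724 v 𝔫 (finComp v g⁻¹ - 1) := fun i j => (hg v hv i j).2
    have h1 : InCl724 v 𝔫 ((1 : Matrix (Fin 2) (Fin 2) (v.adicCompletion K)) - 1) := by
      rw [sub_self]
      exact inCl_zero724
    refine ⟨thetaM175 (finComp v g) * finComp v g⁻¹,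
      finComp v g * thetaM175 (finComp v g⁻¹), 1, 1, ?_, one_mul 1,
      ⟨inCl_prod724 (inCl_theta793 hM) hM', inCl_prod724 hM (inCl_theta793 hM')⟩,
      ⟨h1, h1⟩, ?_⟩
    · rw [mul_assoc, ← mul_assoc (finComp v g⁻¹), finComp_inv_mul724, one_mul,
        ← thetaM175_mul, finComp_inv_mul724, thetaM175_one]
    · rw [mul_one, mul_assoc, finComp_inv_mul724, mul_one]
  · have hdet : (finComp v g).det ≠ 0 := by
      intro h0
      have := congrArg Matrix.det (finComp_mul_inv724 v g)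
      rw [Matrix.det_mul, h0, zero_mul, Matrix.det_one] at this
      exact zero_ne_one this
    obtain ⟨A, A', B, B', hA, hB, iA, iA', iB, iB', e⟩ := hFin v (finComp v g) hdet
    exact ⟨A, A', B, B', hA, hB, ⟨inCl_of_int724 hv iA, inCl_of_int724 hv iA'⟩,
      ⟨inCl_of_int724 hv iB, inCl_of_int724 hv iB'⟩, e⟩

end FinChoice

/-- An element with trivial components at infinity and components `≡ 1 mod 𝔫 𝒪_v` (with
inverse) at the finite places lies in `U(𝔫)`. -/
theorem inLevelGroup_mkG793 (𝔫 : Ideal (𝓞 K))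
    (Mf Nf : ∀ v : HeightOneSpectrum (𝓞 K), Matrix (Fin 2) (Fin 2) (v.adicCompletion K))
    (hM : ∀ v i j, Valued.v (Mf v i j) ≤ 1) (hN : ∀ v i j, Valued.v (Nf v i j) ≤ 1)
    (h3 : ∀ v, Mf v * Nf v = 1)
    (hcl : ∀ v, InCl724 v 𝔫 (Mf v - 1) ∧ InCl724 v 𝔫 (Nf v - 1)) :
    InLevelGroup 𝔫 (mkG724 (fun _ => 1) (fun _ => 1) Mf Nf hM hN (fun _ => mul_one 1) h3) := by
  refine ⟨fun w => ?_, fun v i j => ?_⟩
  · rw [trivAtInf_iff_cInf724, cInf_mkG724]
  · rw [finComp_mkG724, finComp_mkG_inv724]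
    exact ⟨(hcl v).1 i j, (hcl v).2 i j⟩

/-- **T2.22d.6 = `FinGlueC175`**, verbatim. -/
theorem finGlueC793 (K : Type) [Field K] [NumberField K] : FinGlueC175 K := by
  intro hFin 𝔫 _ g hg
  choose Af Af' Bf Bf' hAf hBf hAcl hBcl hef using exists_finT793 hFin 𝔫 g hg
  have iA : ∀ v i j, Valued.v (Af v i j) ≤ 1 := fun v => int_of_inCl724 (hAcl v).1
  have iA' : ∀ v i j, Valued.v (Af' v i j) ≤ 1 := fun v => int_of_inCl724 (hAcl v).2
  have iB : ∀ v i j, Valued.v (Bf v i j) ≤ 1 := fun v => int_of_inCl724 (hBcl v).1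
  have iB' : ∀ v i j, Valued.v (Bf' v i j) ≤ 1 := fun v => int_of_inCl724 (hBcl v).2
  refine ⟨mkG724 (fun _ => 1) (fun _ => 1) Af Af' iA iA' (fun _ => mul_one 1) hAf,
    mkG724 (fun _ => 1) (fun _ => 1) Bf Bf' iB iB' (fun _ => mul_one 1) hBf,
    inLevelGroup_mkG793 𝔫 Af Af' iA iA' hAf hAcl,
    inLevelGroup_mkG793 𝔫 Bf Bf' iB iB' hBf hBcl, fun v => ?_⟩
  rw [finComp_thetaG175, finComp_mkG724, finComp_mkG724]
  exact hef v

end Fermat.Agent.LT.T2.H793

end
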