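import Mathlib
import Fermat.Agent.LT.T2.SpecTau
import Fermat.Agent.LT.T1.H793.AdeleProj

/-!
# Row LT, tower T2, leaf T2.34 `LeafT14` (helper793, OFF-MAIN)

The ray generator exists and is the product of its local components:

* `exists_isRayGen793 : ∃ r : G K, T2.IsRayGen r`  (`t = 2^{1/(2[K:ℚ])}`),
* `rayOfArch793 : T2.RayOfArch K`,
* `leafT14_793 : T2.LeafT14 K`  (VERBATIM vs `T2/SpecTau.lean`, helper130@e2e090185,
  sha256 4d2b0fc2).

Tools: `T1/H793/AdeleProj.lean` (`glMk793`, `gl_ext793`).  Mathlib + A0 only.
-/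

set_option autoImplicit false

open IsDedekindDomain NumberField
open Fermat.Agent.LT.H556.A0
open Fermat.Agent.LT.T1.H793

noncomputable section

namespace Fermat.Agent.LT.T2.H793

open Classical

variable {K : Type} [Field K] [NumberField K]

omit [NumberField K] in
/-- Every real number is a value of the embedding of the completion at an infinite place. -/
lemma exists_extensionEmbedding_eq793 (w : InfinitePlace K) (t : ℝ) :
    ∃ x : w.Completion, InfinitePlace.Completion.extensionEmbedding w x = (t : ℂ) := by
  rcases w.isReal_or_isComplex with hw | hw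
  · set e := InfinitePlace.Completion.ringEquivRealOfIsReal hw with he
    refine ⟨e.symm t, ?_⟩
    rw [← InfinitePlace.Completion.extensionEmbeddingOfIsReal_apply hw]
    have : InfinitePlace.Completion.extensionEmbeddingOfIsReal hw (e.symm t) = t :=
      e.apply_symm_apply t
    rw [this]
  · set e := InfinitePlace.Completion.ringEquivComplexOfIsComplex hw with he
    exact ⟨e.symm (t : ℂ), e.apply_symm_apply _⟩

/-- The scalar matrix of a unit. -/
def scal793 {R : Type} [CommRing R] (c : Rˣ) : GL (Fin 2) R :=
  Units.map (Matrix.scalar (Fin 2)).toMonoidHom c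

lemma scal793_coe {R : Type} [CommRing R] (c : Rˣ) :
    ((scal793 c : GL (Fin 2) R) : Matrix (Fin 2) (Fin 2) R)
      = Matrix.diagonal (fun _ => (c : R)) := rfl

lemma one_integral793 (v : HeightOneSpectrum (𝓞 K)) (i j : Fin 2) :
    ((1 : GL (Fin 2) (v.adicCompletion K)) : Matrix (Fin 2) (Fin 2) (v.adicCompletion K)) i j
      ∈ v.adicCompletionIntegers K := by
  rw [Units.val_one, Matrix.one_apply]
  split_ifs
  · exact one_mem _
  · exact zero_mem _

lemma one_inv_integral793 (v : HeightOneSpectrum (𝓞 K)) (i j : Fin 2) :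
    (((1 : GL (Fin 2) (v.adicCompletion K))⁻¹ : GL (Fin 2) (v.adicCompletion K)) :
      Matrix (Fin 2) (Fin 2) (v.adicCompletion K)) i j ∈ v.adicCompletionIntegers K := by
  rw [inv_one]
  exact one_integral793 v i j

/-- The element of `GL₂(𝔸_K)` which is the scalar `c w` at the infinite places `w ∈ S` and the
identity at all other places. -/
def rayS793 (c : ∀ w : InfinitePlace K, (w.Completion)ˣ) (S : Finset (InfinitePlace K)) : G K :=
  glMk793 (fun w => if w ∈ S then scal793 (c w) else 1) (fun _ => 1)
    (fun v i j => one_integral793 v i j) (fun v i j => one_inv_integral793 v i j)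

lemma glInf793_rayS (c : ∀ w : InfinitePlace K, (w.Completion)ˣ)
    (S : Finset (InfinitePlace K)) (w : InfinitePlace K) :
    glInf793 w (rayS793 c S) = if w ∈ S then scal793 (c w) else 1 :=
  glInf793_glMk _ _ _ _ w

lemma glFin793_rayS (c : ∀ w : InfinitePlace K, (w.Completion)ˣ)
    (S : Finset (InfinitePlace K)) (v : HeightOneSpectrum (𝓞 K)) :
    glFin793 v (rayS793 c S) = 1 :=
  glFin793_glMk _ _ _ _ v

lemma rayS793_empty (c : ∀ w : InfinitePlace K, (w.Completion)ˣ) : rayS793 c ∅ = 1 := by
  refine gl_ext793 (fun w => ?_) (fun v => ?_)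
  · rw [glInf793_rayS, map_one]
    simp
  · rw [glFin793_rayS, map_one]

lemma rayS793_insert (c : ∀ w : InfinitePlace K, (w.Completion)ˣ)
    (S : Finset (InfinitePlace K)) (w : InfinitePlace K) (hw : w ∉ S) :
    rayS793 c (insert w S) = rayS793 c S * rayS793 c {w} := by
  refine gl_ext793 (fun w' => ?_) (fun v => ?_)
  · rw [map_mul, glInf793_rayS, glInf793_rayS, glInf793_rayS]
    by_cases h : w' = w
    · subst h
      simp [hw]
    · by_cases h' : w' ∈ S
      · simp [h, h']
      · simp [h, h']
  · rw [map_mul, glFin793_rayS, glFin793_rayS, glFin793_rayS, mul_one]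

lemma trivAtFin_rayS793 (c : ∀ w : InfinitePlace K, (w.Completion)ˣ)
    (S : Finset (InfinitePlace K)) (v : HeightOneSpectrum (𝓞 K)) :
    TrivAtFin v (rayS793 c S) := by
  unfold TrivAtFin
  rw [finComp_eq793, glFin793_rayS, Units.val_one]

lemma infComp_rayS793 (c : ∀ w : InfinitePlace K, (w.Completion)ˣ)
    (S : Finset (InfinitePlace K)) (w : InfinitePlace K) (hw : w ∈ S) (t : ℝ)
    (ht : InfinitePlace.Completion.extensionEmbedding w (c w : w.Completion) = (t : ℂ)) :
    infComp w (rayS793 c S) = Matrix.diagonal (fun _ => (t : ℂ)) := by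
  rw [infComp_eq793, glInf793_rayS, if_pos hw, scal793_coe]
  ext i j
  rw [Matrix.map_apply, Matrix.diagonal_apply, Matrix.diagonal_apply]
  split_ifs
  · exact ht
  · exact map_zero _

lemma trivAtInf_rayS793 (c : ∀ w : InfinitePlace K, (w.Completion)ˣ)
    (S : Finset (InfinitePlace K)) (w : InfinitePlace K) (hw : w ∉ S) :
    TrivAtInf w (rayS793 c S) := by
  intro i j
  have h := glInf793_rayS c S w
  rw [if_neg hw] at h
  have h2 := congrArg (fun x : GL (Fin 2) w.Completion =>
    (x : Matrix (Fin 2) (Fin 2) w.Completion) i j) h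
  simp only [glInf793_coe, Matrix.map_apply, projInf793_apply, Units.val_one] at h2
  exact h2

lemma isArchPosScalar_rayS793 (c : ∀ w : InfinitePlace K, (w.Completion)ˣ)
    (w : InfinitePlace K) (t : ℝ) (ht0 : 0 < t)
    (ht : InfinitePlace.Completion.extensionEmbedding w (c w : w.Completion) = (t : ℂ)) :
    IsArchPosScalar w (rayS793 c {w}) := by
  refine ⟨⟨fun w' hw' => trivAtInf_rayS793 c {w} w' (by simpa using hw'),
    fun v => trivAtFin_rayS793 c {w} v⟩, t, ht0, ?_⟩
  exact infComp_rayS793 c {w} w (by simp) t ht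

/-- Invariance under the local positive scalars gives invariance under their products. -/
lemma invariant_rayS793 (φ : G K → ℂ)
    (hφ : ∀ (w : InfinitePlace K) (z : G K), IsArchPosScalar w z → ∀ g : G K, φ (g * z) = φ g)
    (c : ∀ w : InfinitePlace K, (w.Completion)ˣ) (t : ℝ) (ht0 : 0 < t)
    (ht : ∀ w : InfinitePlace K,
      InfinitePlace.Completion.extensionEmbedding w (c w : w.Completion) = (t : ℂ))
    (S : Finset (InfinitePlace K)) (g : G K) : φ (g * rayS793 c S) = φ g := by
  induction S using Finset.induction_on generalizing g with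
  | empty => rw [rayS793_empty, mul_one]
  | insert w S hw ih =>
    rw [rayS793_insert c S w hw, ← mul_assoc,
      hφ w _ (isArchPosScalar_rayS793 c w t ht0 (ht w)) (g * rayS793 c S), ih g]

omit [NumberField K] in
/-- Units of the completions with image `t` under the embeddings. -/
lemma exists_units793 (t : ℝ) (ht0 : 0 < t) :
    ∃ c : ∀ w : InfinitePlace K, (w.Completion)ˣ, ∀ w : InfinitePlace K,
      InfinitePlace.Completion.extensionEmbedding w (c w : w.Completion) = (t : ℂ) := by
  have h : ∀ w : InfinitePlace K, ∃ c : (w.Completion)ˣ,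
      InfinitePlace.Completion.extensionEmbedding w (c : w.Completion) = (t : ℂ) := by
    intro w
    obtain ⟨x, hx⟩ := exists_extensionEmbedding_eq793 w t
    have hx0 : x ≠ 0 := by
      intro h0
      rw [h0, map_zero] at hx
      have : (t : ℂ) ≠ 0 := by exact_mod_cast ht0.ne'
      exact this hx.symm
    exact ⟨Units.mk0 x hx0, hx⟩
  choose c hc using h
  exact ⟨c, hc⟩

/-- A ray element is the product of its local components. -/
lemma eq_rayS793_univ (r : G K) (hfin : ∀ v : HeightOneSpectrum (𝓞 K), TrivAtFin v r)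
    (c : ∀ w : InfinitePlace K, (w.Completion)ˣ) (t : ℝ)
    (ht : ∀ w : InfinitePlace K,
      InfinitePlace.Completion.extensionEmbedding w (c w : w.Completion) = (t : ℂ))
    (hr : ∀ w : InfinitePlace K, infComp w r = Matrix.diagonal (fun _ => (t : ℂ))) :
    r = rayS793 c Finset.univ := by
  refine gl_ext793 (fun w => ?_) (fun v => ?_)
  · rw [glInf793_rayS, if_pos (Finset.mem_univ w)]
    apply Units.ext
    refine Matrix.ext fun i j => ?_
    have hinj : Function.Injective (InfinitePlace.Completion.extensionEmbedding w) :=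
      (InfinitePlace.Completion.extensionEmbedding w).injective
    apply hinj
    have h1 := congrFun (congrFun (hr w) i) j
    rw [infComp_eq793, Matrix.map_apply] at h1
    rw [h1, scal793_coe, Matrix.diagonal_apply, Matrix.diagonal_apply]
    split_ifs
    · exact (ht w).symm
    · exact (map_zero _).symm
  · rw [glFin793_rayS]
    apply Units.ext
    have := hfin v
    unfold TrivAtFin at this
    rw [finComp_eq793] at this
    rw [this, Units.val_one]

/-- **The invariance of A0 implies the invariance under the ray generator.** -/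
theorem rayOfArch793 (K : Type) [Field K] [NumberField K] : RayOfArch K := by
  intro φ hφ r hr g
  obtain ⟨hfin, t, ht0, -, hinf⟩ := hr
  obtain ⟨c, hc⟩ := exists_units793 (K := K) t ht0
  rw [eq_rayS793_univ r hfin c t hc hinf]
  exact invariant_rayS793 φ hφ c t ht0 hc Finset.univ g

/-- **The ray generator exists.** -/
theorem exists_isRayGen793 (K : Type) [Field K] [NumberField K] : ∃ r : G K, IsRayGen r := by
  set n : ℕ := Module.finrank ℚ K with hn
  have hn0 : 0 < n := Module.finrank_pos
  set t : ℝ := (2 : ℝ) ^ ((1 : ℝ) / ((2 * n : ℕ) : ℝ)) with ht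
  have ht0 : 0 < t := Real.rpow_pos_of_pos (by norm_num) _
  have htpow : t ^ (2 * n) = 2 := by
    rw [ht, ← Real.rpow_natCast, ← Real.rpow_mul (by norm_num)]
    have : (1 : ℝ) / ((2 * n : ℕ) : ℝ) * ((2 * n : ℕ) : ℝ) = 1 := by
      have : ((2 * n : ℕ) : ℝ) ≠ 0 := by
        have : 0 < 2 * n := by omega
        exact_mod_cast this.ne'
      field_simp
    rw [this, Real.rpow_one]
  obtain ⟨c, hc⟩ := exists_units793 (K := K) t ht0
  refine ⟨rayS793 c Finset.univ, fun v => trivAtFin_rayS793 c _ v, t, ht0, htpow, fun w => ?_⟩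
  exact infComp_rayS793 c Finset.univ w (Finset.mem_univ w) t (hc w)

/-- **T2.34 = `LeafT14`**, verbatim. -/
theorem leafT14_793 (K : Type) [Field K] [NumberField K] : LeafT14 K :=
  ⟨exists_isRayGen793 K, rayOfArch793 K⟩

end Fermat.Agent.LT.T2.H793

end
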